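import Fermat.Agent.MuLarge.RingClass
import Fermat.Agent.AmbiguousClass.Applications
import Fermat.Agent.ExistenceTheorem.UnitPowers
import Mathlib.FieldTheory.KummerExtension

/-!
# Cube roots above the anticyclotomic levels

For a nonempty finite set `S` of primes `≡ 2 (mod 3)` with product `d` and a level `F` of degree
`3 ^ n`, the field `F(∛d)` is cyclic of degree `3` over `F` with at least `#S · 3 ^ n` ramified
primes, so `3 ^ (#S · 3 ^ n)` divides `h(F(∛d)) · 3 · 3 ^ (3 ^ n)` (`three_pow_dvd_classNumber`).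
-/

set_option autoImplicit false
set_option linter.unusedSectionVars false
set_option linter.style.haveILetI false

noncomputable section

open NumberField IsDedekindDomain Polynomial
open FA.Torsion.X35 (K3 zeta3)
open FA.ArtinRec
open scoped Classical

namespace FA.MuLarge

variable {Ω : Type} [Field Ω] [Algebra K3 Ω]

attribute [local instance] numberField_inter Level.fin Level.gal

instance isTotallyComplex_K3 : IsTotallyComplex K3 :=
  ⟨fun v => InfinitePlace.not_isReal_iff_isComplex.1 fun hv => by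
    have h1 := congrArg (InfinitePlace.embedding_of_isReal hv) zeta3.pow_eq_one
    rw [map_pow, map_one] at h1
    refine zeta3.ne_one (by decide) ((InfinitePlace.embedding_of_isReal hv).injective ?_)
    rw [map_one]
    exact (Odd.pow_injective (by decide : Odd 3)) (h1.trans (one_pow 3).symm)⟩

variable {n : ℕ} (F : Level Ω n) {S : Finset ℕ} {β : Ω}

theorem isTotallyComplex_level : IsTotallyComplex F.field :=
  isTotallyComplex_of_algebra (F := K3) (K := F.field)

theorem exists_zeta_level : ∃ ζ : F.field, IsPrimitiveRoot ζ 3 :=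
  ⟨_, zeta3.map_of_injective (algebraMap K3 F.field).injective⟩

/-- `F(β)`. -/
abbrev cubeExt (β : Ω) : IntermediateField F.field Ω := IntermediateField.adjoin F.field {β}

/-- The primes of the level over a member of `S`. -/
theorem ord_prod_eq_one (hS : ∀ ℓ ∈ S, ℓ.Prime ∧ ℓ % 3 = 2) {ℓ : ℕ} (hℓ : ℓ ∈ S)
    {v : HeightOneSpectrum (𝓞 F.field)} (hv : (ℓ : 𝓞 F.field) ∈ v.asIdeal)
    (hd : ((∏ q ∈ S, q : ℕ) : 𝓞 F.field) ≠ 0) :
    ord v (intU ((∏ q ∈ S, q : ℕ) : 𝓞 F.field) hd) = 1 := by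
  set r : 𝓞 F.field := ((∏ q ∈ S.erase ℓ, q : ℕ) : 𝓞 F.field) with hr
  have he : ((∏ q ∈ S, q : ℕ) : 𝓞 F.field) = (ℓ : 𝓞 F.field) * r := by
    rw [hr, ← Nat.cast_mul, ← Finset.prod_insert (Finset.notMem_erase ℓ S) (f := fun q => q),
      Finset.insert_erase hℓ]
  have hℓ0 : (ℓ : 𝓞 F.field) ≠ 0 := fun h => hd (by rw [he, h, zero_mul])
  have hr0 : r ≠ 0 := fun h => hd (by rw [he, h, mul_zero])
  have hrv : r ∉ v.asIdeal := fun hmem => by
    rw [hr, Nat.cast_prod, Ideal.IsPrime.prod_mem_iff] at hmem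
    obtain ⟨q, hq, hqv⟩ := hmem
    obtain ⟨a, b, hab⟩ := Int.isCoprime_iff_nat_coprime.2
      (show Nat.Coprime (ℓ : ℤ).natAbs (q : ℤ).natAbs by
        simpa using (Nat.coprime_primes (hS ℓ hℓ).1 (hS q (Finset.mem_erase.1 hq).2).1).2
          (Finset.mem_erase.1 hq).1.symm)
    refine v.isPrime.ne_top ((Ideal.eq_top_iff_one _).2 ?_)
    have h1 := congrArg (Int.cast : ℤ → 𝓞 F.field) hab
    push_cast at h1
    rw [← h1]
    exact add_mem (v.asIdeal.mul_mem_left _ hv) (v.asIdeal.mul_mem_left _ hqv)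
  rw [show intU ((∏ q ∈ S, q : ℕ) : 𝓞 F.field) hd = intU (ℓ : 𝓞 F.field) hℓ0 * intU r hr0 from
      Units.ext (by simp [he]), ord_mul, (F.prime_count (hS ℓ hℓ).1 (hS ℓ hℓ).2).2 v hv hℓ0,
    (ord_intU_eq_zero_iff v hr0).2 hrv, add_zero]

theorem ne_cube (hS : ∀ ℓ ∈ S, ℓ.Prime ∧ ℓ % 3 = 2) (hne : S.Nonempty) (x : F.field) :
    x ^ 3 ≠ ((∏ q ∈ S, q : ℕ) : F.field) := by
  intro hx
  obtain ⟨ℓ, hℓ⟩ := hne
  obtain ⟨h1, -⟩ := F.prime_count (hS ℓ hℓ).1 (hS ℓ hℓ).2
  obtain ⟨⟨v, hv⟩⟩ := (Nat.card_pos_iff.1 (h1 ▸ pow_pos three_pos n)).1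
  have hd0 : (∏ q ∈ S, q) ≠ 0 := Finset.prod_ne_zero_iff.2 fun q hq => (hS q hq).1.ne_zero
  have hd : ((∏ q ∈ S, q : ℕ) : 𝓞 F.field) ≠ 0 := Nat.cast_ne_zero.2 hd0
  have hx0 : x ≠ 0 := fun h => by
    rw [h, zero_pow (by norm_num)] at hx
    exact Nat.cast_ne_zero.2 hd0 hx.symm
  have h2 := congrArg (ord v) (show Units.mk0 x hx0 ^ 3 =
    intU ((∏ q ∈ S, q : ℕ) : 𝓞 F.field) hd from Units.ext (by simpa using hx))
  rw [ord_pow, ord_prod_eq_one F hS hℓ hv hd] at h2
  omega

variable (hS : ∀ ℓ ∈ S, ℓ.Prime ∧ ℓ % 3 = 2) (hne : S.Nonempty)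
  (hβ : β ^ 3 = ((∏ q ∈ S, q : ℕ) : Ω))

include hS hne hβ

/-- The basic facts about `F(β)`. -/
theorem cubeExt_basic : FiniteDimensional F.field (cubeExt F β) ∧
    IsGalois F.field (cubeExt F β) ∧ Module.finrank F.field (cubeExt F β) = 3 ∧
    IsCyclic (cubeExt F β ≃ₐ[F.field] cubeExt F β) := by
  set a : F.field := ((∏ q ∈ S, q : ℕ) : F.field) with ha
  have hirr : Irreducible (X ^ 3 - C a) :=
    X_pow_sub_C_irreducible_of_prime Nat.prime_three (ne_cube F hS hne)
  have hroot : aeval β (X ^ 3 - C a) = 0 := by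
    simp [ha, hβ]
  have hint : IsIntegral F.field β := ⟨_, monic_X_pow_sub_C a (by norm_num), hroot⟩
  have hdeg : Module.finrank F.field (cubeExt F β) = 3 := by
    rw [IntermediateField.adjoin.finrank hint,
      ← minpoly.eq_of_irreducible_of_monic hirr hroot (monic_X_pow_sub_C a (by norm_num)),
      natDegree_X_pow_sub_C]
  haveI := IntermediateField.adjoin.finiteDimensional hint
  obtain ⟨ζ, hζ⟩ := exists_zeta_level F
  have hK : (primitiveRoots (Module.finrank F.field (cubeExt F β)) F.field).Nonempty :=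
    ⟨ζ, by rw [hdeg]; exact (mem_primitiveRoots (by norm_num)).2 hζ⟩
  set α : cubeExt F β := IntermediateField.AdjoinSimple.gen F.field β
  have hα : IntermediateField.adjoin F.field {α} = ⊤ :=
    IntermediateField.lift_injective _ (by
      rw [IntermediateField.lift_adjoin_simple, IntermediateField.lift_top]
      rfl)
  haveI hs := isSplittingField_X_pow_sub_C_of_root_adjoin_eq_top hK (a := a) (α := α) (by
    rw [hdeg]
    exact Subtype.ext (by simpa [ha, α] using hβ)) hα
  have hirr' : Irreducible (X ^ Module.finrank F.field (cubeExt F β) - C a) := by rwa [hdeg]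
  haveI hgal := isGalois_of_isSplittingField_X_pow_sub_C hK hirr' (cubeExt F β)
  refine ⟨inferInstance, hgal, hdeg, ?_⟩
  exact isCyclic_of_prime_card (p := 3) ((IsGalois.card_aut_eq_finrank _ _).trans hdeg)

/-- **The class number of `F(∛d)` is divisible by a high power of `3`.** -/
theorem three_pow_dvd_classNumber [NumberField (cubeExt F β)] :
    3 ^ (S.card * 3 ^ n) ∣ classNumber (cubeExt F β) * (3 * 3 ^ 3 ^ n) := by
  obtain ⟨-, hgal, hdeg, hcyc⟩ := cubeExt_basic F hS hne hβ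
  obtain ⟨σ, hσ⟩ := FA.AmbClass.exists_generator (K := F.field) (L := cubeExt F β)
  have hF := FA.AmbClass.card_fixed hσ
  haveI := isTotallyComplex_level F
  have hinf : Nat.card {w : InfinitePlace F.field // ¬ w.IsUnramifiedIn (cubeExt F β)} = 0 := by
    haveI : IsEmpty {w : InfinitePlace F.field // ¬ w.IsUnramifiedIn (cubeExt F β)} :=
      ⟨fun w => w.2 fun u hu => InfinitePlace.isUnramified_iff.2
        (Or.inr (hu.symm ▸ IsTotallyComplex.isComplex w.1))⟩
    exact Nat.card_of_isEmpty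
  rw [FA.AmbClass.prod_infIdx, hinf, pow_zero, mul_one, hdeg] at hF
  set c := Nat.card {c : ClassGroup (𝓞 (cubeExt F β)) //
    ∀ g : cubeExt F β ≃ₐ[F.field] cubeExt F β, FA.AmbClass.galCl g c = c} with hc
  set i := ((Units.map (Algebra.norm F.field : cubeExt F β →* F.field)).range.comap
    (intUnits (F := F.field))).index with hi
  -- the units
  have hidx : i ∣ 3 ^ 3 ^ n := by
    obtain ⟨ζ, hζ⟩ := exists_zeta_level F
    have hcard : Fintype.card (InfinitePlace F.field) = 3 ^ n := by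
      have h1 := IsTotallyComplex.finrank (K := F.field)
      rw [← Module.finrank_mul_finrank ℚ K3 F.field, F.finrank_eq,
        IsCyclotomicExtension.Rat.finrank 3 K3, show Nat.totient 3 = 2 from rfl,
        InfinitePlace.card_eq_nrRealPlaces_add_nrComplexPlaces] at *
      rw [IsTotallyComplex.nrRealPlaces_eq_zero, zero_add]
      omega
    have hrange : (intUnits (F := F.field)).range = tUnit (∅ : Finset _) := by
      ext x
      constructor
      · rintro ⟨u, rfl⟩ v -
        exact ord_intUnits u v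
      · exact fun hx => exists_intUnits_eq fun v => hx v (Finset.notMem_empty v)
    have h := relIndex_pow_tUnit (p := 3) (by norm_num) hζ (∅ : Finset _)
    rw [Finset.card_empty, add_zero, hcard, ← hrange] at h
    rw [hi, Subgroup.index_comap, ← h]
    refine Subgroup.relIndex_dvd_of_le_left _ ?_
    rintro _ ⟨x, -, rfl⟩
    exact ⟨Units.map (algebraMap F.field (cubeExt F β)) x, Units.ext (by
      simp [Algebra.norm_algebraMap, hdeg])⟩
  -- the ramified primes
  have hd0 : (∏ q ∈ S, q) ≠ 0 := Finset.prod_ne_zero_iff.2 fun q hq => (hS q hq).1.ne_zero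
  have hd : ((∏ q ∈ S, q : ℕ) : 𝓞 F.field) ≠ 0 := Nat.cast_ne_zero.2 hd0
  have he : ∀ ℓ ∈ S, ∀ v : HeightOneSpectrum (𝓞 F.field), (ℓ : 𝓞 F.field) ∈ v.asIdeal →
      FA.AmbClass.eBase (cubeExt F β) v = 3 := fun ℓ hℓ v hv => by
    obtain ⟨Q, rfl⟩ := exists_belowP F.field (cubeExt F β) v
    have h1 := ord_baseU (K := F.field) Q (intU ((∏ q ∈ S, q : ℕ) : 𝓞 F.field) hd)
    rw [ord_prod_eq_one F hS hℓ hv hd, mul_one, FA.AmbClass.eIdx_eq_eBase] at h1
    have hβ0 : IntermediateField.AdjoinSimple.gen F.field β ≠ 0 := fun h0 => by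
      have h2 : β = 0 := congrArg Subtype.val h0
      haveI : CharZero Ω := charZero_of_injective_algebraMap (algebraMap K3 Ω).injective
      rw [h2, zero_pow (by norm_num)] at hβ
      exact Nat.cast_ne_zero.2 hd0 hβ.symm
    rw [show baseU (intU ((∏ q ∈ S, q : ℕ) : 𝓞 F.field) hd) =
      Units.mk0 _ hβ0 ^ 3 from Units.ext (Subtype.ext (by simpa using hβ.symm)), ord_pow] at h1
    have h3 : FA.AmbClass.eBase (cubeExt F β) (belowP F.field Q) ∣ 3 :=
      (FA.AmbClass.eBase_dvd (belowP F.field Q)).trans (dvd_of_eq hdeg)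
    rcases (Nat.dvd_prime Nat.prime_three).1 h3 with h4 | h4
    · rw [h4] at h1
      omega
    · exact h4
  have hfinT : ∀ ℓ ∈ S, {v : HeightOneSpectrum (𝓞 F.field) |
      (ℓ : 𝓞 F.field) ∈ v.asIdeal}.Finite := fun ℓ hℓ =>
    (Ideal.finite_factors (I := Ideal.span {(ℓ : 𝓞 F.field)})
      (by simpa using (hS ℓ hℓ).1.ne_zero)).subset fun v hv => Ideal.dvd_span_singleton.mpr hv
  set T : Finset (HeightOneSpectrum (𝓞 F.field)) :=
    S.attach.biUnion fun ℓ => (hfinT ℓ.1 ℓ.2).toFinset with hT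
  have hTcard : T.card = S.card * 3 ^ n := by
    rw [hT, Finset.card_biUnion]
    · rw [Finset.sum_const_nat (m := 3 ^ n), Finset.card_attach]
      intro ℓ _
      rw [← Nat.card_eq_finsetCard, ← (F.prime_count (hS ℓ.1 ℓ.2).1 (hS ℓ.1 ℓ.2).2).1]
      exact Nat.card_congr (Equiv.subtypeEquivRight fun v => (hfinT ℓ.1 ℓ.2).mem_toFinset)
    · intro a _ b _ hab
      rw [Function.onFun, Finset.disjoint_left]
      intro v ha hb
      rw [Set.Finite.mem_toFinset] at ha hb
      obtain ⟨x, y, hxy⟩ := Int.isCoprime_iff_nat_coprime.2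
        (show Nat.Coprime (a.1 : ℤ).natAbs (b.1 : ℤ).natAbs by
          simpa using (Nat.coprime_primes (hS a.1 a.2).1 (hS b.1 b.2).1).2
            fun h => hab (Subtype.ext h))
      refine v.isPrime.ne_top ((Ideal.eq_top_iff_one _).2 ?_)
      have h1 := congrArg (Int.cast : ℤ → 𝓞 F.field) hxy
      push_cast at h1
      rw [← h1]
      exact add_mem (v.asIdeal.mul_mem_left _ ha) (v.asIdeal.mul_mem_left _ hb)
  have hP : 3 ^ (S.card * 3 ^ n) ∣
      ∏ᶠ v : HeightOneSpectrum (𝓞 F.field), FA.AmbClass.eBase (cubeExt F β) v := by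
    set R := (FA.AmbClass.finite_eBase_ne_one F.field (cubeExt F β)).toFinset with hR
    have hT3 : ∀ v ∈ T, FA.AmbClass.eBase (cubeExt F β) v = 3 := fun v hv => by
      obtain ⟨ℓ, -, hv'⟩ := Finset.mem_biUnion.1 (hT ▸ hv)
      exact he ℓ.1 ℓ.2 v ((hfinT ℓ.1 ℓ.2).mem_toFinset.1 hv')
    have hsub : T ⊆ R := fun v hv => (Set.Finite.mem_toFinset _).2 (by
      show FA.AmbClass.eBase (cubeExt F β) v ≠ 1
      rw [hT3 v hv]
      norm_num)
    rw [finprod_eq_prod_of_mulSupport_subset _ (s := R)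
      (fun v hv => Finset.mem_coe.2 ((Set.Finite.mem_toFinset _).2 hv)), ← hTcard]
    refine dvd_trans (dvd_of_eq ?_) (Finset.prod_dvd_prod_of_subset T R _ hsub)
    rw [Finset.prod_congr rfl hT3, Finset.prod_const]
  have hfix : c ∣ classNumber (cubeExt F β) := by
    have h := Subgroup.card_subgroup_dvd_card (FA.AmbClass.fixedClasses F.field (cubeExt F β))
    rwa [Nat.card_eq_fintype_card (α := ClassGroup (𝓞 (cubeExt F β)))] at h
  calc 3 ^ (S.card * 3 ^ n) ∣ c * 3 * i := hF ▸ hP.mul_left _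
    _ ∣ classNumber (cubeExt F β) * 3 * 3 ^ 3 ^ n :=
        mul_dvd_mul (mul_dvd_mul_right hfix 3) hidx
    _ = _ := mul_assoc _ _ _

end FA.MuLarge
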