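import Fermat.Agent.MuLarge.Kummer
import Fermat.Agent.IwasawaGrowth.MuModule
import Fermat.Agent.IwasawaGrowth.Classes
import Fermat.Agent.FerreroWashington.Main
import Mathlib.NumberTheory.LSeries.PrimesInAP

/-!
# Iwasawa: `μ` can be arbitrarily large

For `t` primes `≡ 2 (mod 3)` with product `d` the field `L = ℚ(ζ₃, ∛d)` times the anticyclotomic
levels is a `ℤ₃`-extension of `L` with `μ ≥ t - 1` (`exists_large_mu`).
-/

set_option autoImplicit false
set_option linter.unusedSectionVars false
set_option linter.style.haveILetI false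

noncomputable section

open NumberField Polynomial
open FA.Torsion.X35 (K3 zeta3)
open FA.IwasawaGrowth
open scoped Classical

namespace FA.MuLarge

attribute [local instance] numberField_inter Level.fin Level.gal

/-- The product of primes `≡ 2 (mod 3)` is no cube in `ℚ(ζ₃)`. -/
theorem base_ne_cube {S : Finset ℕ} (hS : ∀ ℓ ∈ S, ℓ.Prime ∧ ℓ % 3 = 2) (hne : S.Nonempty)
    (x : K3) : x ^ 3 ≠ ((∏ q ∈ S, q : ℕ) : K3) := fun hx => by
  obtain ⟨F⟩ := nonempty_level (AlgebraicClosure K3) 0
  refine ne_cube F hS hne (algebraMap K3 F.field x) ?_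
  rw [← map_pow, hx, map_natCast]

section relative

variable {L : Type} [Field L] [NumberField L] [Algebra K3 L] {n : ℕ}
  (F : Level (AlgebraicClosure L) n) {S : Finset ℕ} (β : L)

/-- `F L` over `L`. -/
def overField (hgen : ∀ x : L, algebraMap L (AlgebraicClosure L) x ∈
    cubeExt F (algebraMap L (AlgebraicClosure L) β)) :
    IntermediateField L (AlgebraicClosure L) :=
  (cubeExt F (algebraMap L (AlgebraicClosure L) β)).toSubfield.toIntermediateField hgen

variable (hS : ∀ ℓ ∈ S, ℓ.Prime ∧ ℓ % 3 = 2) (hne : S.Nonempty)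
  (hβ : β ^ 3 = ((∏ q ∈ S, q : ℕ) : L))
  (hdeg : Module.finrank K3 L = 3) (hL : IsGalois K3 L)
  (htop : IntermediateField.adjoin K3 ({β} : Set L) = ⊤)

theorem mem_cubeExt_of_top (htop : IntermediateField.adjoin K3 ({β} : Set L) = ⊤) (x : L) :
    algebraMap L (AlgebraicClosure L) x ∈ cubeExt F (algebraMap L (AlgebraicClosure L) β) := by
  have hx : x ∈ IntermediateField.adjoin K3 ({β} : Set L) := by
    rw [htop]
    exact IntermediateField.mem_top
  induction hx using IntermediateField.adjoin_induction with
  | mem y hy =>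
    rw [Set.mem_singleton_iff.1 hy]
    exact IntermediateField.mem_adjoin_simple_self _ _
  | algebraMap y =>
    rw [← IsScalarTower.algebraMap_apply K3 L (AlgebraicClosure L),
      IsScalarTower.algebraMap_apply K3 F.field (AlgebraicClosure L)]
    exact IntermediateField.algebraMap_mem _ _
  | add y z _ _ ihy ihz =>
    rw [map_add]
    exact add_mem ihy ihz
  | inv y _ ihy =>
    rw [map_inv₀]
    exact inv_mem ihy
  | mul y z _ _ ihy ihz =>
    rw [map_mul]
    exact mul_mem ihy ihz

include hS hne hβ hdeg hL htop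

/-- **The level over `L`.** -/
theorem overField_spec (hgen : ∀ x : L, algebraMap L (AlgebraicClosure L) x ∈
    cubeExt F (algebraMap L (AlgebraicClosure L) β)) :
    IsGalois L (overField F β hgen) ∧ IsCyclic (overField F β hgen ≃ₐ[L] overField F β hgen) ∧
      Module.finrank L (overField F β hgen) = 3 ^ n ∧
      ∀ [NumberField (overField F β hgen)],
        3 ^ (S.card * 3 ^ n) ∣ classNumber (overField F β hgen) * (3 * 3 ^ 3 ^ n) := by
  set Ω := AlgebraicClosure L
  set b := algebraMap L Ω β with hb
  have hb3 : b ^ 3 = ((∏ q ∈ S, q : ℕ) : Ω) := by rw [hb, ← map_pow, hβ, map_natCast]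
  obtain ⟨hfin, -, hM, -⟩ := cubeExt_basic F hS hne hb3
  haveI := hfin
  haveI : FiniteDimensional K3 (cubeExt F b) := Module.Finite.trans F.field _
  haveI : NumberField (cubeExt F b) := NumberField.of_module_finite K3 _
  let e : overField F β hgen ≃ₐ[K3] cubeExt F b :=
    { toFun := fun x => ⟨x.1, x.2⟩
      invFun := fun x => ⟨x.1, x.2⟩
      left_inv := fun _ => rfl
      right_inv := fun _ => rfl
      map_mul' := fun _ _ => rfl
      map_add' := fun _ _ => rfl
      commutes' := fun _ => rfl }
  haveI : FiniteDimensional K3 (overField F β hgen) := e.symm.toLinearEquiv.finiteDimensional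
  haveI : FiniteDimensional K3 L := Module.finite_of_finrank_pos (by rw [hdeg]; norm_num)
  haveI : FiniteDimensional L (overField F β hgen) := Module.Finite.right K3 L _
  have hfr : Module.finrank L (overField F β hgen) = 3 ^ n := by
    have h1 := Module.finrank_mul_finrank K3 L (overField F β hgen)
    have h2 := Module.finrank_mul_finrank K3 F.field (cubeExt F b)
    rw [e.toLinearEquiv.finrank_eq, ← h2, F.finrank_eq, hM, hdeg] at h1
    omega
  have hrs : (cubeExt F b).restrictScalars K3 =
      F.field ⊔ (IsScalarTower.toAlgHom K3 L Ω).fieldRange := by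
    rw [IntermediateField.restrictScalars_adjoin, IntermediateField.adjoin_union,
      IntermediateField.adjoin_self, AlgHom.fieldRange_eq_map, ← htop,
      IntermediateField.adjoin_map, Set.image_singleton]
    rfl
  haveI hnorm : Normal K3 (overField F β hgen) := by
    haveI : Normal K3 (IsScalarTower.toAlgHom K3 L Ω).fieldRange :=
      Normal.of_algEquiv (AlgEquiv.ofInjectiveField (IsScalarTower.toAlgHom K3 L Ω))
    have h1 : Normal K3 ↥(F.field ⊔ (IsScalarTower.toAlgHom K3 L Ω).fieldRange) :=
      inferInstance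
    rw [← hrs] at h1
    exact Normal.of_algEquiv (F := K3) (E := (cubeExt F b).restrictScalars K3)
      (show ((cubeExt F b).restrictScalars K3) ≃ₐ[K3] overField F β hgen from e.symm)
  haveI : IsGalois K3 (overField F β hgen) := ⟨⟩
  have hgal : IsGalois L (overField F β hgen) :=
    IsGalois.tower_top_of_isGalois K3 L _
  have hle : ∀ x : F.field, (x : Ω) ∈ overField F β hgen := fun x =>
    (cubeExt F b).algebraMap_mem x
  letI : Algebra F.field (overField F β hgen) :=
    RingHom.toAlgebra
      { toFun := fun x => ⟨x, hle x⟩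
        map_one' := rfl
        map_mul' := fun _ _ => rfl
        map_zero' := rfl
        map_add' := fun _ _ => rfl }
  haveI : IsScalarTower K3 F.field (overField F β hgen) :=
    IsScalarTower.of_algebraMap_eq fun _ => rfl
  let res : (overField F β hgen ≃ₐ[L] overField F β hgen) →* (F.field ≃ₐ[K3] F.field) :=
    (AlgEquiv.restrictNormalHom F.field).comp
      { toFun := fun g => g.restrictScalars K3
        map_one' := rfl
        map_mul' := fun _ _ => rfl }
  have hinj : Function.Injective res := (injective_iff_map_eq_one res).2 fun g hg => by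
    have key : ∀ x, ∀ hx : x ∈ cubeExt F b,
        g (⟨x, hx⟩ : overField F β hgen) = ⟨x, hx⟩ := fun x hx => by
      induction hx using IntermediateField.adjoin_induction with
      | mem y hy =>
        obtain rfl := Set.mem_singleton_iff.1 hy
        exact g.commutes β
      | algebraMap y =>
        have h1 := (g.restrictScalars K3).restrictNormal_commutes F.field y
        rw [show (g.restrictScalars K3).restrictNormal F.field = 1 from hg] at h1
        exact h1.symm
      | add y z hy hz ihy ihz =>
        exact (map_add g (⟨y, hy⟩ : overField F β hgen) ⟨z, hz⟩).trans (congrArg₂ (· + ·) ihy ihz)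
      | inv y hy ihy =>
        exact (map_inv₀ g (⟨y, hy⟩ : overField F β hgen)).trans (congrArg (·⁻¹) ihy)
      | mul y z hy hz ihy ihz =>
        exact (map_mul g (⟨y, hy⟩ : overField F β hgen) ⟨z, hz⟩).trans (congrArg₂ (· * ·) ihy ihz)
    exact AlgEquiv.ext fun x => key x.1 x.2
  haveI := F.cyclic
  refine ⟨hgal, isCyclic_of_injective res hinj, hfr, ?_⟩
  intro _
  rw [(FA.FerreroWashington.card_classGroup_congr e.toRingEquiv 3).1]
  exact three_pow_dvd_classNumber F hS hne hb3

end relative

/-- **`μ` can be arbitrarily large.** -/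
theorem exists_large_mu (m : ℕ) : ∃ (L : Type) (_ : Field L) (_ : NumberField L)
    (F : ℕ → IntermediateField L (AlgebraicClosure L)) (_ : ∀ n, NumberField (F n)),
    (∀ n, IsGalois L (F n)) ∧ (∀ n, IsCyclic (F n ≃ₐ[L] F n)) ∧
      (∀ n, Module.finrank L (F n) = 3 ^ n) ∧ Monotone F ∧
      (∀ n, 3 ^ (m * 3 ^ n) ∣ 3 * classNumber (F n)) ∧
      ∃ (mu lam : ℕ) (nu : ℤ) (n₀ : ℕ), m ≤ mu ∧ ∀ n, n₀ ≤ n →
        (padicValNat 3 (classNumber (F n)) : ℤ) = mu * 3 ^ n + lam * n + nu := by
  have hu : IsUnit (2 : ZMod 3) := (ZMod.unitOfCoprime 2 (by norm_num)).isUnit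
  haveI : Fact (Nat.Prime 3) := ⟨Nat.prime_three⟩
  obtain ⟨S, hS, hcard⟩ := (Nat.infinite_setOfPred_prime_and_eq_mod (q := 3) (a := (2 : ZMod 3))
    hu).exists_subset_card_eq (m + 1)
  have hS' : ∀ ℓ ∈ S, ℓ.Prime ∧ ℓ % 3 = 2 := fun ℓ hℓ => by
    obtain ⟨h1, h2⟩ := hS hℓ
    refine ⟨h1, ?_⟩
    have h3 := congrArg ZMod.val h2
    rw [ZMod.val_natCast] at h3
    exact h3
  have hne : S.Nonempty := Finset.card_pos.1 (by omega)
  set d : K3 := ((∏ q ∈ S, q : ℕ) : K3) with hd
  have hirr : Irreducible (X ^ 3 - C d) :=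
    X_pow_sub_C_irreducible_of_prime Nat.prime_three (base_ne_cube hS' hne)
  have hprim : (primitiveRoots 3 K3).Nonempty :=
    ⟨_, (mem_primitiveRoots (by norm_num)).2 zeta3⟩
  let L := (X ^ 3 - C d).SplittingField
  haveI : NumberField L := NumberField.of_module_finite K3 L
  haveI hL : IsGalois K3 L := isGalois_of_isSplittingField_X_pow_sub_C hprim hirr L
  have hdeg : Module.finrank K3 L = 3 := finrank_of_isSplittingField_X_pow_sub_C hprim hirr L
  set β : L := rootOfSplitsXPowSubC (by norm_num : 0 < 3) d L
  have hβ : β ^ 3 = algebraMap K3 L d := rootOfSplitsXPowSubC_pow d L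
  have htop : IntermediateField.adjoin K3 ({β} : Set L) = ⊤ :=
    IntermediateField.adjoin_root_eq_top_of_isSplittingField hprim hirr hβ
  have hβ' : β ^ 3 = ((∏ q ∈ S, q : ℕ) : L) := hβ.trans (map_natCast _ _)
  let Lev := fun n => (nonempty_level (AlgebraicClosure L) n).some
  let T : ℕ → IntermediateField L (AlgebraicClosure L) := fun n =>
    overField (Lev n) β (mem_cubeExt_of_top (Lev n) β htop)
  have hspec := fun n =>
    overField_spec (Lev n) β hS' hne hβ' hdeg hL htop (mem_cubeExt_of_top (Lev n) β htop)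
  have hmono : Monotone T := monotone_nat_of_le_succ fun n x hx => by
    let b := algebraMap L (AlgebraicClosure L) β
    have h1 : IntermediateField.restrictScalars K3 (cubeExt (Lev n) b) ≤
        IntermediateField.restrictScalars K3 (cubeExt (Lev (n + 1)) b) := by
      rw [IntermediateField.restrictScalars_adjoin, IntermediateField.restrictScalars_adjoin]
      exact IntermediateField.adjoin.mono _ _ _
        (Set.union_subset_union_left _ (Level.le_succ (Lev n) (Lev (n + 1))))
    exact h1 hx
  haveI hnf : ∀ n, NumberField (T n) := fun n =>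
    haveI : FiniteDimensional L (T n) :=
      Module.finite_of_finrank_pos (by rw [(hspec n).2.2.1]; positivity)
    NumberField.of_module_finite L _
  let Z : ZpTower 3 L :=
    { field := T
      isGalois := fun n => (hspec n).1
      isCyclic := fun n => (hspec n).2.1
      finrank_eq := fun n => (hspec n).2.2.1
      mono := hmono }
  have hbound : ∀ n, 3 ^ (m * 3 ^ n) ∣ 3 * classNumber (T n) := fun n => by
    have h := (hspec n).2.2.2
    rw [hcard, Nat.succ_mul, pow_add, ← mul_assoc, mul_comm (classNumber _) 3] at h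
    exact Nat.dvd_of_mul_dvd_mul_right (pow_pos three_pos _) h
  refine ⟨L, inferInstance, inferInstance, T, hnf, fun n => (hspec n).1, fun n => (hspec n).2.1,
    fun n => (hspec n).2.2.1, hmono, hbound, ?_⟩
  obtain ⟨mu, lam, nu, n₀, hform⟩ := Z.growth_classNumber
  refine ⟨mu, lam, nu, n₀, ?_, hform⟩
  suffices h : ((m : ℤ) - mu) ≤ 0 by omega
  refine nonpos_of_exp_le (p := 3) (A := lam) (B := nu + 1) (k₀ := n₀) fun k hk => ?_
  have h1 : (padicValNat 3 (classNumber (T k)) : ℤ) = mu * 3 ^ k + lam * k + nu := hform k hk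
  have h2 : m * 3 ^ k ≤ padicValNat 3 (3 * classNumber (T k)) :=
    (padicValNat_dvd_iff_le (Nat.mul_ne_zero three_ne_zero (classNumber_ne_zero _))).1 (hbound k)
  rw [padicValNat.mul three_ne_zero (classNumber_ne_zero _),
    padicValNat.self (by norm_num : 1 < 3)] at h2
  have h3 : (m : ℤ) * 3 ^ k ≤ 1 + padicValNat 3 (classNumber (T k)) := by exact_mod_cast h2
  push_cast
  linarith

end FA.MuLarge
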