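import Fermat.Agent.Torsion.X35Eisenstein

/-!
# Residues modulo `3 ^ N` in `ℤ[ζ₃]` up to units and rational integers

With `g = 1 + 3η` every element of `ℤ[η]` prime to `3` is congruent modulo `3 ^ N` to a unit times a
rational integer times a power of `g` (`exists_decomp`), and `g ^ (3 ^ j)` is congruent to no unit
times a rational integer when `j + 1 < N` (`not_dvd_gen_pow_sub`): the residues modulo units and
rational integers form a cyclic group of order `3 ^ (N - 1)`.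
-/

set_option autoImplicit false
set_option linter.style.haveILetI false

noncomputable section

open NumberField
open FA.Torsion.X35

namespace FA.MuLarge

/-- `1 + 3η`, a generator of the residues modulo units and rational integers. -/
def gen : 𝓞 K3 := 1 + 3 * eta3

theorem eis_mul (p q r s : ℤ) :
    eis p q * eis r s = eis (p * r - q * s) (p * s + q * r - q * s) := by
  simp only [eis]
  push_cast
  linear_combination ((q : 𝓞 K3) * s) * eta3_sq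

/-- Divisibility by an integer is divisibility of both coordinates. -/
theorem intCast_dvd_eis {m p q : ℤ} :
    (m : 𝓞 K3) ∣ eis p q ↔ m ∣ p ∧ m ∣ q := by
  constructor
  · rintro ⟨x, hx⟩
    obtain ⟨r, s, rfl⟩ := exists_eis x
    obtain ⟨h1, h2⟩ := eis_inj (p' := m * r) (q' := m * s) (hx.trans (by simp [eis]; ring))
    exact ⟨⟨r, h1⟩, ⟨s, h2⟩⟩
  · rintro ⟨⟨r, rfl⟩, ⟨s, rfl⟩⟩
    exact ⟨eis r s, by simp [eis]; ring⟩

theorem three_dvd_eis {p q : ℤ} : (3 : 𝓞 K3) ∣ eis p q ↔ (3 : ℤ) ∣ p ∧ (3 : ℤ) ∣ q := by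
  simpa using intCast_dvd_eis (m := 3) (p := p) (q := q)

/-- The binomial expansion to the second order. -/
theorem add_pow_dvd_aux {R : Type*} [CommRing R] (a : R) (m : ℕ) :
    ∃ c, (1 + a) ^ m = 1 + m * a + a ^ 2 * c := by
  induction m with
  | zero => exact ⟨0, by simp⟩
  | succ m ih =>
    obtain ⟨c, hc⟩ := ih
    refine ⟨c + m + a * c, ?_⟩
    rw [pow_succ, hc]
    push_cast
    ring

/-- An element prime to `3` has coordinates with sum prime to `3`. -/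
theorem not_three_dvd_add {p q : ℤ} (h : IsCoprime (eis p q) 3) : ¬ (3 : ℤ) ∣ p + q := by
  rintro ⟨k, hk⟩
  have h3 : (3 : 𝓞 K3) = (eta3 - 1) * (-eta3 - 2) := by linear_combination eta3_sq
  have hp : eis p q = (eta3 - 1) * ((-eta3 - 2) * k + q) := by
    have hk' : (p : 𝓞 K3) + q = 3 * k := by exact_mod_cast congrArg (Int.cast : ℤ → 𝓞 K3) hk
    simp only [eis]
    linear_combination hk' + (k : 𝓞 K3) * h3
  rw [hp, h3] at h
  obtain ⟨c, hc⟩ := isUnit_iff_dvd_one.1 (h.isUnit_of_dvd' (dvd_mul_right _ _) (dvd_mul_right _ _))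
  obtain ⟨r, s, rfl⟩ := exists_eis c
  obtain ⟨h1, h2⟩ := eis_inj (p := 1) (q := 0) (p' := -r - s) (q' := r - 2 * s) (by
    rw [show eis 1 0 = 1 by simp [eis], hc]
    simp only [eis]
    push_cast
    linear_combination (s : 𝓞 K3) * eta3_sq)
  omega

/-- `g ^ (3 ^ j) = 1 + 3 ^ (j + 1) (η + 3 y)`. -/
theorem gen_pow_three_pow (j : ℕ) :
    ∃ y : 𝓞 K3, gen ^ 3 ^ j = 1 + 3 ^ (j + 1) * (eta3 + 3 * y) := by
  induction j with
  | zero => exact ⟨0, by simp [gen]⟩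
  | succ j ih =>
    obtain ⟨y, hy⟩ := ih
    refine ⟨y + 3 ^ j * (eta3 + 3 * y) ^ 2 + 3 ^ (2 * j) * (eta3 + 3 * y) ^ 3, ?_⟩
    rw [pow_succ, pow_mul, hy]
    ring

/-- `g ^ (3 ^ (N - 1)) ≡ 1` modulo `3 ^ N`. -/
theorem gen_pow_congr (j : ℕ) : (3 : 𝓞 K3) ^ (j + 1) ∣ gen ^ 3 ^ j - 1 := by
  obtain ⟨y, hy⟩ := gen_pow_three_pow j
  exact ⟨eta3 + 3 * y, by rw [hy]; ring⟩

theorem isCoprime_gen : IsCoprime gen (3 : 𝓞 K3) := ⟨1, -eta3, by simp [gen]; ring⟩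

theorem three_dvd_gen_pow_sub_one (i : ℕ) : (3 : 𝓞 K3) ∣ gen ^ i - 1 :=
  (show (3 : 𝓞 K3) ∣ gen - 1 from ⟨eta3, by simp [gen]⟩).trans (sub_one_dvd_pow_sub_one gen i)

/-- **A rational integer times a unit is no `g ^ (3 ^ j)` modulo a higher power of `3`.** -/
theorem not_dvd_gen_pow_sub {j N : ℕ} (hj : j + 1 < N) (u : (𝓞 K3)ˣ) (a : ℤ) :
    ¬ (3 : 𝓞 K3) ^ N ∣ gen ^ 3 ^ j - u * a := by
  intro h
  obtain ⟨y, hy⟩ := gen_pow_three_pow j
  have h2 : (3 : 𝓞 K3) ^ (j + 2) ∣ 1 + 3 ^ (j + 1) * eta3 - u * a := by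
    have h' := (pow_dvd_pow (3 : 𝓞 K3) (show j + 2 ≤ N by omega)).trans h
    rw [hy] at h'
    obtain ⟨c, hc⟩ := h'
    exact ⟨c - y, by linear_combination hc⟩
  have h3 : (3 : 𝓞 K3) ∣ 1 - u * a := by
    have h' := dvd_sub ((dvd_pow_self (3 : 𝓞 K3) (by omega : j + 2 ≠ 0)).trans h2)
      ((dvd_pow_self (3 : 𝓞 K3) (by omega : j + 1 ≠ 0)).mul_right eta3)
    simpa [add_sub_assoc, sub_right_comm, ← sub_eq_add_neg] using h'
  obtain ⟨c, hc⟩ := h3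
  have ha : ¬ (3 : ℤ) ∣ a := by
    rintro ⟨b, rfl⟩
    have h1 : (3 : 𝓞 K3) ∣ eis 1 0 := ⟨c + u * b, by
      simp only [eis]; push_cast at hc ⊢; linear_combination hc⟩
    have := (three_dvd_eis.1 h1).1
    omega
  obtain ⟨b, hb⟩ : (3 : ℤ) ∣ a ^ 2 - 1 := by
    have h1 : a % 3 = 1 ∨ a % 3 = 2 := by omega
    rcases h1 with e | e <;>
      · rw [← Int.modEq_zero_iff_dvd, Int.ModEq, Int.sub_emod, pow_two, Int.mul_emod, e]
        rfl
  have hb' : (a : 𝓞 K3) ^ 2 - 1 = 3 * b := by exact_mod_cast congrArg (Int.cast : ℤ → 𝓞 K3) hb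
  have hu := IsCyclotomicExtension.Rat.Three.eq_one_or_neg_one_of_unit_of_congruent zeta3 u
    ⟨a, -eta3 ^ 2 * (-(u : 𝓞 K3) * b - a * c), by
      show (u : 𝓞 K3) - a = (eta3 - 1) ^ 2 * (-eta3 ^ 2 * (-(u : 𝓞 K3) * b - a * c))
      linear_combination (-(u : 𝓞 K3)) * hb' - (a : 𝓞 K3) * hc +
        ((eta3 ^ 2 - 3 * eta3 + 3) * (-(u : 𝓞 K3) * b - a * c)) * eta3_sq⟩
  have key : ∀ e : ℤ, (u : 𝓞 K3) * a = e → False := fun e he => by
    rw [he] at h2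
    have h4 : ((3 ^ (j + 2) : ℤ) : 𝓞 K3) ∣ eis (1 - e) (3 ^ (j + 1)) := by
      rw [show ((3 ^ (j + 2) : ℤ) : 𝓞 K3) = 3 ^ (j + 2) by push_cast; rfl,
        show eis (1 - e) (3 ^ (j + 1)) = 1 + 3 ^ (j + 1) * eta3 - e by
          simp only [eis]; push_cast; ring]
      exact h2
    have h5 := Int.le_of_dvd (by positivity) (intCast_dvd_eis.1 h4).2
    rw [pow_succ 3 (j + 1)] at h5
    nlinarith [show (0 : ℤ) < 3 ^ (j + 1) by positivity]
  rcases hu with rfl | rfl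
  · exact key a (by simp)
  · exact key (-a) (by simp)

/-- **Every element prime to `3` is a unit times an integer times a power of `g`.** -/
theorem exists_decomp (N : ℕ) {α : 𝓞 K3} (hα : IsCoprime α 3) :
    ∃ (u : (𝓞 K3)ˣ) (a : ℤ) (i : ℕ), ¬ (3 : ℤ) ∣ a ∧
      (3 : 𝓞 K3) ^ N ∣ α - u * a * gen ^ i := by
  rcases N.eq_zero_or_pos with rfl | hN
  · exact ⟨1, 1, 0, by norm_num, by simp⟩
  induction N, hN using Nat.le_induction with
  | base =>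
    obtain ⟨p, q, rfl⟩ := exists_eis α
    have hpq := not_three_dvd_add hα
    suffices h : ∃ (u : (𝓞 K3)ˣ) (a : ℤ), ¬ (3 : ℤ) ∣ a ∧ (3 : 𝓞 K3) ∣ eis p q - u * a by
      obtain ⟨u, a, ha, h⟩ := h
      exact ⟨u, a, 0, ha, by simpa using h⟩
    let ηu : (𝓞 K3)ˣ :=
      (IsPrimitiveRoot.isUnit zeta3.toInteger_isPrimitiveRoot (by decide)).unit
    have hη : (ηu : 𝓞 K3) = eta3 := rfl
    have key : ∀ (u : (𝓞 K3)ˣ) (a r s : ℤ), ¬ (3 : ℤ) ∣ a → (u : 𝓞 K3) * a = eis r s →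
        (3 : ℤ) ∣ p - r → (3 : ℤ) ∣ q - s →
        ∃ (u : (𝓞 K3)ˣ) (a : ℤ), ¬ (3 : ℤ) ∣ a ∧ (3 : 𝓞 K3) ∣ eis p q - u * a :=
      fun u a r s ha he h1 h2 => ⟨u, a, ha, by
        rw [he, show eis p q - eis r s = eis (p - r) (q - s) by simp only [eis]; push_cast; ring]
        exact three_dvd_eis.2 ⟨h1, h2⟩⟩
    have h1 : (q % 3 = 0 ∧ p % 3 = 1) ∨ (q % 3 = 0 ∧ p % 3 = 2) ∨ (p % 3 = 0 ∧ q % 3 = 1) ∨
        (p % 3 = 0 ∧ q % 3 = 2) ∨ (p % 3 = 1 ∧ q % 3 = 1) ∨ (p % 3 = 2 ∧ q % 3 = 2) := by omega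
    rcases h1 with ⟨_, _⟩ | ⟨_, _⟩ | ⟨_, _⟩ | ⟨_, _⟩ | ⟨_, _⟩ | ⟨_, _⟩
    · exact key 1 1 1 0 (by norm_num) (by simp [eis]) (by omega) (by omega)
    · exact key 1 (-1) (-1) 0 (by norm_num) (by simp [eis]) (by omega) (by omega)
    · exact key ηu 1 0 1 (by norm_num) (by simp [eis, hη]) (by omega) (by omega)
    · exact key ηu (-1) 0 (-1) (by norm_num) (by simp [eis, hη]) (by omega) (by omega)
    · exact key (ηu ^ 2) (-1) 1 1 (by norm_num) (by simp [eis, hη, eta3_sq]) (by omega)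
        (by omega)
    · exact key (ηu ^ 2) 1 (-1) (-1) (by norm_num) (by simp [eis, hη, eta3_sq]; ring) (by omega)
        (by omega)
  | succ j hj ih =>
    obtain ⟨u, a, i, ha, z, hz⟩ := ih
    obtain ⟨x, y, hxy⟩ := exists_eis ((↑u⁻¹ : 𝓞 K3) * a * z)
    obtain ⟨m, hm⟩ : ∃ m : ℕ, (3 : ℤ) ∣ (m : ℤ) - y :=
      ⟨(y % 3).toNat, by rw [Int.toNat_of_nonneg (Int.emod_nonneg _ (by norm_num))]; omega⟩
    refine ⟨u, a * (1 + 3 ^ j * x), i + 3 ^ (j - 1) * m, fun hd => ha ?_, ?_⟩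
    · have h1 : a = a * (1 + 3 ^ j * x) - 3 ^ j * (a * x) := by ring
      rw [h1]
      exact dvd_sub hd ((dvd_pow_self 3 (by omega : j ≠ 0)).mul_right _)
    · obtain ⟨w, hw⟩ := gen_pow_three_pow (j - 1)
      rw [Nat.sub_add_cancel hj] at hw
      obtain ⟨t, ht⟩ : (3 : 𝓞 K3) ^ (j + 1) ∣
          gen ^ (3 ^ (j - 1) * m) - (1 + 3 ^ j * y * eta3) := by
        obtain ⟨d, hd⟩ := hm
        have hd' : (m : 𝓞 K3) = y + 3 * d := by
          exact_mod_cast congrArg (Int.cast : ℤ → 𝓞 K3) (eq_add_of_sub_eq' hd)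
        obtain ⟨c, hc⟩ := add_pow_dvd_aux (3 ^ j * (eta3 + 3 * w)) m
        have h2j : (3 : 𝓞 K3) ^ (j + 1) ∣ (3 ^ j * (eta3 + 3 * w)) ^ 2 * c := by
          rw [mul_pow, ← pow_mul]
          exact ((pow_dvd_pow 3 (by omega : j + 1 ≤ j * 2)).mul_right _).mul_right _
        obtain ⟨t, ht⟩ := h2j
        refine ⟨t + (d * eta3 + m * w), ?_⟩
        rw [pow_mul, hw, hc]
        linear_combination ht + (3 : 𝓞 K3) ^ j * eta3 * hd'
      obtain ⟨q, hq⟩ := three_dvd_gen_pow_sub_one i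
      have ha2 : (3 : ℤ) ∣ a ^ 2 - 1 := by
        have h1 : a % 3 = 1 ∨ a % 3 = 2 := by omega
        rcases h1 with e | e <;>
          · rw [← Int.modEq_zero_iff_dvd, Int.ModEq, Int.sub_emod, pow_two, Int.mul_emod, e]
            rfl
      obtain ⟨b, hb⟩ := ha2
      have hb' : (a : 𝓞 K3) ^ 2 - 1 = 3 * b := by
        exact_mod_cast congrArg (Int.cast : ℤ → 𝓞 K3) hb
      have hxy' : (u : 𝓞 K3) * ((x : 𝓞 K3) + y * eta3) = a * z := by
        rw [show (x : 𝓞 K3) + y * eta3 = eis x y from rfl, ← hxy, ← mul_assoc, ← mul_assoc,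
          Units.mul_inv, one_mul]
      refine ⟨-(u : 𝓞 K3) * a * gen ^ i * (1 + 3 ^ j * x) * t -
        3 ^ (j - 1) * u * a * gen ^ i * x * y * eta3 -
        (u : 𝓞 K3) * a * q * (x + y * eta3) - b * z, ?_⟩
      have e : (3 : 𝓞 K3) ^ j = 3 * 3 ^ (j - 1) := by rw [← pow_succ', Nat.sub_add_cancel hj]
      push_cast
      rw [pow_add gen i]
      linear_combination hz - (u : 𝓞 K3) * a * gen ^ i * (1 + 3 ^ j * x) * ht -
        (3 : 𝓞 K3) ^ j * (u : 𝓞 K3) * a * (x + y * eta3) * hq -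
        (3 : 𝓞 K3) ^ j * (a : 𝓞 K3) * hxy' - (3 : 𝓞 K3) ^ j * z * hb' -
        (u : 𝓞 K3) * a * gen ^ i * 3 ^ j * x * y * eta3 * e

end FA.MuLarge
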