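import Fermat.Agent.MuLarge.Residues
import Fermat.Agent.ExistenceTheorem.Uniqueness

/-!
# The anticyclotomic `ℤ₃`-extension of `ℚ(ζ₃)`

The classes modulo `3 ^ (n + 1)` of the ideals with a generator congruent to a rational integer form
a subgroup `ringClasses n` with cyclic quotient of order `3 ^ n`; its class fields (`Level`)
increase with `n` (`Level.le_succ`), and a prime `ℓ ≡ 2 (mod 3)` has `3 ^ n` primes over it in the level `n`,
all unramified (`Level.prime_count`).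
-/

set_option autoImplicit false
set_option linter.unusedSectionVars false
set_option linter.style.haveILetI false

noncomputable section

open NumberField IsDedekindDomain
open FA.Torsion.X35 (K3 eta3 eis exists_eis eis_inj zeta3)
open FA.Hecke (IsRayElt coprimeIdeals RayClassGroup rayClass rayClass_eq_iff rayClass_surjective
  finite_rayClassGroup)
open FA.Ext (primeIdeal)
open FA.ArtinRec
open scoped nonZeroDivisors Classical

namespace FA.MuLarge

instance isPID_K3 : IsPrincipalIdealRing (𝓞 K3) := IsCyclotomicExtension.Rat.three_pid K3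

/-- `(3 ^ (n + 1))`. -/
def modulus (n : ℕ) : Ideal (𝓞 K3) := Ideal.span {(3 : 𝓞 K3) ^ (n + 1)}

theorem mem_modulus {n : ℕ} {x : 𝓞 K3} : x ∈ modulus n ↔ (3 : 𝓞 K3) ^ (n + 1) ∣ x :=
  Ideal.mem_span_singleton

theorem modulus_ne_bot (n : ℕ) : modulus n ≠ ⊥ := by
  simp [modulus]

theorem coprime_modulus_iff {n : ℕ} {x : 𝓞 K3} :
    Ideal.span {x} ⊔ modulus n = ⊤ ↔ IsCoprime x 3 := by
  rw [modulus, ← Ideal.isCoprime_iff_sup_eq, Ideal.isCoprime_span_singleton_iff,
    IsCoprime.pow_right_iff n.succ_pos]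

theorem ne_zero_of_isCoprime {x : 𝓞 K3} (h : IsCoprime x 3) : x ≠ 0 := by
  rintro rfl
  have h1 : (3 : 𝓞 K3) ∣ eis 1 0 := by
    rw [show eis 1 0 = 1 by simp [eis]]
    exact (isCoprime_zero_left.1 h).dvd
  have := (three_dvd_eis.1 h1).1
  omega

theorem isCoprime_intCast {a : ℤ} (h : ¬ (3 : ℤ) ∣ a) : IsCoprime (a : 𝓞 K3) 3 := by
  simpa using ((Int.prime_three.coprime_iff_not_dvd).2 h).symm.map (Int.castRingHom (𝓞 K3))

/-- `ℚ(ζ₃)` has no real embedding, so congruence is all there is. -/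
theorem isRayElt_iff' {n : ℕ} {x : 𝓞 K3} (hx : x ≠ 0) (h : x - 1 ∈ modulus n) :
    IsRayElt (modulus n) x := ⟨hx, h, fun φ => by
  exfalso
  have h1 := congrArg φ zeta3.pow_eq_one
  rw [map_pow, map_one] at h1
  refine zeta3.ne_one (by decide) (φ.injective ?_)
  rw [map_one]
  exact (Odd.pow_injective (by decide : Odd 3)) (h1.trans (one_pow 3).symm)⟩

/-- `(x)` as an ideal prime to `3`. -/
def idealOf (n : ℕ) {x : 𝓞 K3} (h : IsCoprime x 3) : coprimeIdeals (modulus n) :=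
  ⟨⟨Ideal.span {x}, mem_nonZeroDivisors_iff_ne_zero.2 (by simpa using ne_zero_of_isCoprime h)⟩,
    coprime_modulus_iff.2 h⟩

/-- The class of `(x)`. -/
def cls (n : ℕ) {x : 𝓞 K3} (h : IsCoprime x 3) : RayClassGroup (modulus n) :=
  rayClass (modulus_ne_bot n) (idealOf n h)

theorem cls_mul (n : ℕ) {x y : 𝓞 K3} (hx : IsCoprime x 3) (hy : IsCoprime y 3) :
    cls n (hx.mul_left hy) = cls n hx * cls n hy := by
  rw [cls, cls, cls, ← map_mul]
  exact congrArg _ (Subtype.ext (Subtype.ext (Ideal.span_singleton_mul_span_singleton x y).symm))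

theorem cls_congr (n : ℕ) {x y : 𝓞 K3} (hx : IsCoprime x 3) (hy : IsCoprime y 3) (h : x = y) :
    cls n hx = cls n hy := by
  subst h
  rfl

theorem cls_one (n : ℕ) : cls n (isCoprime_one_left : IsCoprime (1 : 𝓞 K3) 3) = 1 := by
  rw [cls, show idealOf n (isCoprime_one_left : IsCoprime (1 : 𝓞 K3) 3) = 1 from
    Subtype.ext (Subtype.ext (by simp [idealOf, Ideal.one_eq_top])), map_one]

theorem cls_pow (n : ℕ) {x : 𝓞 K3} (hx : IsCoprime x 3) (k : ℕ) :
    cls n (hx.pow_left (m := k)) = cls n hx ^ k := by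
  induction k with
  | zero => rw [pow_zero (cls n hx)]; exact (cls_congr n _ _ (pow_zero x)).trans (cls_one n)
  | succ k ih =>
    rw [pow_succ (cls n hx), ← ih, ← cls_mul]
    exact cls_congr n _ _ (pow_succ x k)

/-- **Equal classes are congruent up to a unit.** -/
theorem cls_eq_iff (n : ℕ) {x y : 𝓞 K3} (hx : IsCoprime x 3) (hy : IsCoprime y 3) :
    cls n hx = cls n hy ↔ ∃ u : (𝓞 K3)ˣ, (3 : 𝓞 K3) ^ (n + 1) ∣ x - u * y := by
  rw [cls, cls, rayClass_eq_iff]
  constructor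
  · rintro ⟨a, b, ha, hb, h⟩
    rw [show (idealOf n hx).1.1 = Ideal.span {x} from rfl,
      show (idealOf n hy).1.1 = Ideal.span {y} from rfl, Ideal.span_singleton_mul_span_singleton,
      Ideal.span_singleton_mul_span_singleton, Ideal.span_singleton_eq_span_singleton] at h
    obtain ⟨u, hu⟩ := h
    refine ⟨u⁻¹, ?_⟩
    obtain ⟨c, hc⟩ := mem_modulus.1 ha.2.1
    obtain ⟨d, hd⟩ := mem_modulus.1 hb.2.1
    refine ⟨d * y * (↑u⁻¹ : 𝓞 K3) - c * x, ?_⟩
    linear_combination (↑u⁻¹ : 𝓞 K3) * hu + (↑u⁻¹ : 𝓞 K3) * y * hd - x * hc -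
      (a * x) * (Units.mul_inv u)
  · rintro ⟨u, c, hc⟩
    obtain ⟨b, d, hbd⟩ := hy.pow_right (n := n + 1)
    have hb1 : b * y - 1 ∈ modulus n := mem_modulus.2 ⟨-d, by linear_combination hbd⟩
    have hb2 : b * x * (↑u⁻¹ : 𝓞 K3) - 1 ∈ modulus n :=
      mem_modulus.2 ⟨b * c * (↑u⁻¹ : 𝓞 K3) - d, by
        linear_combination (b * (↑u⁻¹ : 𝓞 K3)) * hc + hbd + b * y * Units.mul_inv u⟩
    have hne : ∀ z : 𝓞 K3, z - 1 ∈ modulus n → z ≠ 0 := fun z hz h0 => by
      rw [h0, zero_sub, neg_mem_iff] at hz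
      obtain ⟨e, he⟩ := mem_modulus.1 hz
      have h1 : (3 : 𝓞 K3) ∣ eis 1 0 := ⟨3 ^ n * e, by
        rw [show eis 1 0 = 1 by simp [eis], he, pow_succ]; ring⟩
      have := (three_dvd_eis.1 h1).1
      omega
    refine ⟨b * y, b * x * (↑u⁻¹ : 𝓞 K3), isRayElt_iff' (hne _ hb1) hb1,
      isRayElt_iff' (hne _ hb2) hb2, ?_⟩
    rw [show (idealOf n hx).1.1 = Ideal.span {x} from rfl,
      show (idealOf n hy).1.1 = Ideal.span {y} from rfl, Ideal.span_singleton_mul_span_singleton,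
      Ideal.span_singleton_mul_span_singleton, Ideal.span_singleton_eq_span_singleton]
    exact ⟨u⁻¹, by ring⟩

theorem exists_cls (n : ℕ) (γ : RayClassGroup (modulus n)) :
    ∃ (x : 𝓞 K3) (h : IsCoprime x 3), cls n h = γ := by
  obtain ⟨I, rfl⟩ := rayClass_surjective (modulus_ne_bot n) γ
  obtain ⟨x, hx⟩ := (IsPrincipalIdealRing.principal I.1.1).principal
  rw [Ideal.submodule_span_eq] at hx
  have hI : I.1.1 ⊔ modulus n = ⊤ := I.2
  rw [hx, coprime_modulus_iff] at hI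
  exact ⟨x, hI, congrArg _ (Subtype.ext (Subtype.ext hx.symm))⟩

/-- **The classes of the elements congruent to rational integers.** -/
def ringClasses (n : ℕ) : Subgroup (RayClassGroup (modulus n)) :=
  haveI := finite_rayClassGroup (modulus_ne_bot n)
  let S : Submonoid (RayClassGroup (modulus n)) :=
    { carrier := {γ | ∃ (x : 𝓞 K3) (h : IsCoprime x 3) (a : ℤ),
        (3 : 𝓞 K3) ^ (n + 1) ∣ x - a ∧ cls n h = γ}
      one_mem' := ⟨1, isCoprime_one_left, 1, by simp, cls_one n⟩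
      mul_mem' := by
        rintro _ _ ⟨x, hx, a, ⟨c, hc⟩, rfl⟩ ⟨y, hy, b, ⟨d, hd⟩, rfl⟩
        refine ⟨x * y, hx.mul_left hy, a * b, ⟨c * y + a * d, ?_⟩, cls_mul n hx hy⟩
        push_cast
        linear_combination y * hc + (a : 𝓞 K3) * hd }
  { S with
    inv_mem' := fun {γ} hγ => by
      rw [show γ⁻¹ = γ ^ (orderOf γ - 1) from inv_eq_of_mul_eq_one_right (by
        rw [← pow_succ', Nat.sub_add_cancel (orderOf_pos γ), pow_orderOf_eq_one])]
      exact S.pow_mem hγ _ }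

theorem cls_mem_iff (n : ℕ) {x : 𝓞 K3} (hx : IsCoprime x 3) :
    cls n hx ∈ ringClasses n ↔
      ∃ (u : (𝓞 K3)ˣ) (a : ℤ), (3 : 𝓞 K3) ^ (n + 1) ∣ x - u * a := by
  constructor
  · rintro ⟨y, hy, a, ⟨c, hc⟩, he⟩
    obtain ⟨u, d, hd⟩ := (cls_eq_iff n hx hy).1 he.symm
    exact ⟨u, a, d + u * c, by linear_combination hd + (u : 𝓞 K3) * hc⟩
  · rintro ⟨u, a, c, hc⟩
    have ha : IsCoprime (a : 𝓞 K3) 3 := by
      have h1 : IsCoprime ((u : 𝓞 K3) * a) 3 := by
        have h2 := hx.add_mul_left_left (-(3 ^ n * c))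
        rwa [show x + 3 * -(3 ^ n * c) = u * a by linear_combination hc] at h2
      exact h1.of_mul_left_right
    exact ⟨a, ha, a, by simp, ((cls_eq_iff n hx ha).2 ⟨u, c, hc⟩).symm⟩

theorem intCast_mem (n : ℕ) {a : ℤ} (h : IsCoprime (a : 𝓞 K3) 3) :
    cls n h ∈ ringClasses n :=
  (cls_mem_iff n h).2 ⟨1, a, by simp⟩

/-- The class of `g` in the quotient. -/
def genClass (n : ℕ) : RayClassGroup (modulus n) ⧸ ringClasses n :=
  QuotientGroup.mk' _ (cls n isCoprime_gen)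

theorem mem_zpowers_genClass (n : ℕ) (q : RayClassGroup (modulus n) ⧸ ringClasses n) :
    q ∈ Subgroup.zpowers (genClass n) := by
  obtain ⟨γ, rfl⟩ := QuotientGroup.mk'_surjective _ q
  obtain ⟨x, hx, rfl⟩ := exists_cls n γ
  obtain ⟨u, a, i, ha, hd⟩ := exists_decomp (n + 1) hx
  have hm := intCast_mem n (isCoprime_intCast ha)
  have he : cls n hx = cls n ((isCoprime_intCast ha).mul_left (isCoprime_gen.pow_left (m := i))) :=
    (cls_eq_iff n _ _).2 ⟨u, by rwa [← mul_assoc]⟩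
  rw [he, cls_mul n (isCoprime_intCast ha) isCoprime_gen.pow_left, cls_pow n isCoprime_gen,
    map_mul, map_pow,
    show QuotientGroup.mk' (ringClasses n) (cls n (isCoprime_intCast ha)) = 1 from
      (QuotientGroup.eq_one_iff _).2 hm, one_mul]
  exact Subgroup.npow_mem_zpowers _ i

theorem genClass_pow_eq_one_iff (n k : ℕ) :
    genClass n ^ k = 1 ↔
      ∃ (u : (𝓞 K3)ˣ) (a : ℤ), (3 : 𝓞 K3) ^ (n + 1) ∣ gen ^ k - u * a := by
  rw [genClass, ← map_pow, ← cls_pow, QuotientGroup.mk'_apply, QuotientGroup.eq_one_iff,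
    cls_mem_iff]

theorem orderOf_genClass (n : ℕ) : orderOf (genClass n) = 3 ^ n := by
  haveI := Fact.mk Nat.prime_three
  have h1 : genClass n ^ 3 ^ n = 1 :=
    (genClass_pow_eq_one_iff n _).2 ⟨1, 1, by simpa using gen_pow_congr n⟩
  rcases n with - | m
  · simpa using h1
  · refine orderOf_eq_prime_pow (fun h => ?_) h1
    obtain ⟨u, a, hd⟩ := (genClass_pow_eq_one_iff (m + 1) _).1 h
    exact not_dvd_gen_pow_sub (by omega) u a hd

/-- **The quotient is cyclic of order `3 ^ n`.** -/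
theorem index_ringClasses (n : ℕ) :
    (ringClasses n).index = 3 ^ n ∧ IsCyclic (RayClassGroup (modulus n) ⧸ ringClasses n) :=
  ⟨by rw [Subgroup.index_eq_card, ← orderOf_eq_card_of_forall_mem_zpowers (mem_zpowers_genClass n),
    orderOf_genClass], ⟨⟨genClass n, mem_zpowers_genClass n⟩⟩⟩

variable (Ω : Type) [Field Ω] [Algebra K3 Ω]

/-- A finite subextension is a number field. -/
theorem numberField_inter (E : IntermediateField K3 Ω) [FiniteDimensional K3 E] : NumberField E :=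
  NumberField.of_module_finite K3 E

attribute [local instance] numberField_inter

/-- The class field of `ringClasses n` inside `Ω`. -/
structure Level (n : ℕ) where
  /-- The field. -/
  field : IntermediateField K3 Ω
  [fin : FiniteDimensional K3 field]
  [gal : IsGalois K3 field]
  cyclic : IsCyclic (field ≃ₐ[K3] field)
  finrank_eq : Module.finrank K3 field = 3 ^ n
  unram : ∀ v : HeightOneSpectrum (𝓞 K3), v.asIdeal ⊔ modulus n = ⊤ → ¬ IsRam field v
  split_iff : ∀ (v : HeightOneSpectrum (𝓞 K3)) (hv : v.asIdeal ⊔ modulus n = ⊤),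
    artinAt field v = 1 ↔ rayClass (modulus_ne_bot n) ⟨primeIdeal v, hv⟩ ∈ ringClasses n

theorem nonempty_level [IsAlgClosed Ω] (n : ℕ) : Nonempty (Level Ω n) := by
  obtain ⟨L, _, _, _, _, _, hL⟩ := exists_classField (modulus_ne_bot n) Set.univ (ringClasses n) (by
    rw [semiClasses_univ]
    exact bot_le)
  let f : L →ₐ[K3] Ω := IsAlgClosed.lift
  let e : L ≃ₐ[K3] f.fieldRange := AlgEquiv.ofInjectiveField f
  haveI : FiniteDimensional K3 f.fieldRange := e.toLinearEquiv.finiteDimensional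
  haveI : IsGalois K3 f.fieldRange := IsGalois.of_algEquiv e
  have hcyc : IsCyclic (f.fieldRange ≃ₐ[K3] f.fieldRange) := by
    obtain ⟨ω, hs, hker, -⟩ := hL.artin
    haveI := (index_ringClasses n).2
    refine e.autCongr.isCyclic.1 (isCyclic_of_surjective
      (QuotientGroup.lift (ringClasses n) ω hker.ge) fun g => ?_)
    obtain ⟨γ, rfl⟩ := hs g
    exact ⟨QuotientGroup.mk γ, rfl⟩
  haveI : IsMulCommutative (f.fieldRange ≃ₐ[K3] f.fieldRange) := hcyc.isMulCommutative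
  have hun : ∀ v : HeightOneSpectrum (𝓞 K3), v.asIdeal ⊔ modulus n = ⊤ →
      ¬ IsRam f.fieldRange v := fun v hv => isRam_of_algHom e.symm.toAlgHom (hL.unram v hv)
  refine ⟨{ field := f.fieldRange
            cyclic := hcyc
            finrank_eq := ?_
            unram := hun
            split_iff := fun v hv => ?_ }⟩
  · rw [← e.toLinearEquiv.finrank_eq, ← IsGalois.card_aut_eq_finrank, hL.card_eq,
      (index_ringClasses n).1]
  · rw [← hL.artinAt_eq_one_iff v hv]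
    exact ⟨artinAt_eq_one_of_algHom e.toAlgHom (hL.unram v hv),
      artinAt_eq_one_of_algHom e.symm.toAlgHom (hun v hv)⟩

variable {Ω}

attribute [local instance] Level.fin Level.gal

/-- **The levels increase.** -/
theorem Level.le_succ {n : ℕ} (F : Level Ω n) (F' : Level Ω (n + 1)) : F.field ≤ F'.field := by
  haveI := F.cyclic.isMulCommutative
  haveI := F'.cyclic.isMulCommutative
  refine le_of_split_subset (Ideal.finite_factors (modulus_ne_bot n)) fun v hv h => ?_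
  have hv' : ∀ m, v.asIdeal ⊔ modulus m = ⊤ := fun m => by
    refine (sup_eq_top_iff_not_le v _).2 fun hle => hv ?_
    show v.asIdeal ∣ modulus n
    have h3 : (3 : 𝓞 K3) ∈ v.asIdeal :=
      v.isPrime.mem_of_pow_mem _ (hle (Ideal.mem_span_singleton_self _))
    rw [Ideal.dvd_iff_le, modulus, Ideal.span_singleton_le_iff_mem]
    exact Ideal.pow_mem_of_mem _ h3 _ n.succ_pos
  obtain ⟨x, hx⟩ := (IsPrincipalIdealRing.principal v.asIdeal).principal
  rw [Ideal.submodule_span_eq] at hx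
  have hxc : IsCoprime x 3 := coprime_modulus_iff.1 (hx ▸ hv' n)
  have e : ∀ m, (⟨primeIdeal v, hv' m⟩ : coprimeIdeals (modulus m)) = idealOf m hxc :=
    fun m => Subtype.ext (Subtype.ext hx)
  have h1 := (F'.split_iff v (hv' (n + 1))).1 h
  rw [e] at h1
  obtain ⟨u, a, hd⟩ := (cls_mem_iff (n + 1) hxc).1 h1
  refine (F.split_iff v (hv' n)).2 ?_
  rw [e]
  exact (cls_mem_iff n hxc).2 ⟨u, a, (pow_dvd_pow _ (by omega)).trans hd⟩

/-- A prime `ℓ ≡ 2 (mod 3)` stays prime. -/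
theorem prime_natCast {ℓ : ℕ} (hℓ : ℓ.Prime) (h2 : ℓ % 3 = 2) : Prime (ℓ : 𝓞 K3) := by
  haveI := Fact.mk hℓ
  have hno : ∀ p q : ℤ, (ℓ : ℤ) ∣ p ^ 2 - p * q + q ^ 2 → (ℓ : ℤ) ∣ p ∧ (ℓ : ℤ) ∣ q := by
    intro p q h
    rw [← ZMod.intCast_zmod_eq_zero_iff_dvd] at h
    push_cast at h
    rw [← ZMod.intCast_zmod_eq_zero_iff_dvd, ← ZMod.intCast_zmod_eq_zero_iff_dvd]
    by_cases hq : (q : ZMod ℓ) = 0
    · rw [hq] at h
      exact ⟨by simpa using h, hq⟩
    · exfalso
      set x : ZMod ℓ := -((p : ZMod ℓ) * (q : ZMod ℓ)⁻¹) with hx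
      have h' : x ^ 2 + x + 1 = 0 := by
        rw [hx]
        field_simp
        linear_combination h
      have hx0 : x ≠ 0 := fun h0 => by simp [h0] at h'
      have h3 : orderOf x ∣ 3 := orderOf_dvd_of_pow_eq_one (by linear_combination (x - 1) * h')
      have hF : orderOf x ∣ ℓ - 1 := orderOf_dvd_of_pow_eq_one (ZMod.pow_card_sub_one_eq_one hx0)
      have h1 : orderOf x = 1 := by
        rcases (Nat.dvd_prime Nat.prime_three).1 h3 with h1 | h1
        · exact h1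
        · rw [h1] at hF
          have := hℓ.two_le
          omega
      rw [orderOf_eq_one_iff.1 h1] at h'
      have h3' : ((3 : ℕ) : ZMod ℓ) = 0 := by push_cast; linear_combination h'
      have := Nat.le_of_dvd (by norm_num) ((ZMod.natCast_eq_zero_iff _ _).1 h3')
      interval_cases ℓ <;> simp_all
  refine ⟨by simpa using hℓ.ne_zero, fun hu => ?_, fun a b hab => ?_⟩
  · obtain ⟨c, hc⟩ := isUnit_iff_dvd_one.1 hu
    have h1 : ((ℓ : ℤ) : 𝓞 K3) ∣ eis 1 0 := ⟨c, by simpa [eis] using hc⟩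
    have h1' := Int.le_of_dvd (by norm_num) (intCast_dvd_eis.1 h1).1
    have := hℓ.two_le
    omega
  · obtain ⟨p, q, rfl⟩ := exists_eis a
    obtain ⟨r, s, rfl⟩ := exists_eis b
    rw [eis_mul] at hab
    obtain ⟨h1, h2'⟩ := (intCast_dvd_eis (m := (ℓ : ℤ))).1 (by simpa using hab)
    have hN : (ℓ : ℤ) ∣ (p ^ 2 - p * q + q ^ 2) * (r ^ 2 - r * s + s ^ 2) := by
      rw [show (p ^ 2 - p * q + q ^ 2) * (r ^ 2 - r * s + s ^ 2) =
        (p * r - q * s) ^ 2 - (p * r - q * s) * (p * s + q * r - q * s) +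
          (p * s + q * r - q * s) ^ 2 by ring]
      exact dvd_add (dvd_sub (dvd_pow h1 two_ne_zero) (h1.mul_right _)) (dvd_pow h2' two_ne_zero)
    refine ((Nat.prime_iff_prime_int.1 hℓ).dvd_or_dvd hN).imp (fun h => ?_) fun h => ?_
    all_goals simpa using (intCast_dvd_eis (m := (ℓ : ℤ))).2 (hno _ _ h)

/-- **A prime `≡ 2 (mod 3)` splits completely in every level.** -/
theorem Level.prime_count {n : ℕ} (F : Level Ω n) {ℓ : ℕ} (hℓ : ℓ.Prime) (h2 : ℓ % 3 = 2) :
    Nat.card {v : HeightOneSpectrum (𝓞 F.field) // (ℓ : 𝓞 F.field) ∈ v.asIdeal} = 3 ^ n ∧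
      ∀ v : HeightOneSpectrum (𝓞 F.field), (ℓ : 𝓞 F.field) ∈ v.asIdeal →
        ∀ hℓ0 : (ℓ : 𝓞 F.field) ≠ 0, ord v (intU (ℓ : 𝓞 F.field) hℓ0) = 1 := by
  haveI := F.cyclic.isMulCommutative
  have hp := prime_natCast hℓ h2
  have hℓ0' : (ℓ : 𝓞 K3) ≠ 0 := hp.ne_zero
  have hspan : (Ideal.span {(ℓ : 𝓞 K3)}).IsPrime :=
    (Ideal.span_singleton_prime hℓ0').2 hp
  let v₀ : HeightOneSpectrum (𝓞 K3) := ⟨Ideal.span {(ℓ : 𝓞 K3)}, hspan, by simpa using hℓ0'⟩
  have hc : IsCoprime ((ℓ : ℤ) : 𝓞 K3) 3 := isCoprime_intCast (by omega)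
  rw [Int.cast_natCast] at hc
  have hv₀ : v₀.asIdeal ⊔ modulus n = ⊤ := coprime_modulus_iff.2 hc
  have hart : artinAt F.field v₀ = 1 := by
    rw [F.split_iff v₀ hv₀]
    have h1 : cls n hc ∈ ringClasses n := (cls_mem_iff n hc).2 ⟨1, ℓ, by simp⟩
    exact h1
  have hun : ¬ IsRam F.field v₀ := F.unram v₀ hv₀
  have hmem : ∀ Q : HeightOneSpectrum (𝓞 F.field),
      (ℓ : 𝓞 F.field) ∈ Q.asIdeal ↔ belowP K3 Q = v₀ := fun Q => by
    constructor
    · intro hQ
      refine HeightOneSpectrum.ext (v₀.isMaximal.eq_of_le (belowP K3 Q).isPrime.ne_top ?_).symm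
      show Ideal.span {(ℓ : 𝓞 K3)} ≤ Q.asIdeal.under (𝓞 K3)
      rw [Ideal.span_singleton_le_iff_mem, Ideal.mem_comap, map_natCast]
      exact hQ
    · intro h
      have h1 : (ℓ : 𝓞 K3) ∈ (belowP K3 Q).asIdeal := by
        rw [h]
        exact Ideal.mem_span_singleton_self _
      change (ℓ : 𝓞 K3) ∈ Q.asIdeal.under (𝓞 K3) at h1
      rwa [Ideal.mem_comap, map_natCast] at h1
  have hf : fDeg F.field v₀ = 1 := by
    obtain ⟨Q, hQ⟩ := exists_relNorm_eq (L := F.field) hart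
    rw [relNorm_prime] at hQ
    have hd : (belowP K3 Q).asIdeal ∣ v₀.asIdeal := hQ ▸ dvd_pow_self _ (fDeg_ne_zero _)
    rw [show belowP K3 Q = v₀ from HeightOneSpectrum.ext
      ((prime_dvd_prime_iff_eq (belowP K3 Q).prime v₀.prime).1 hd)] at hQ
    have h1 := congrArg (ordI v₀) hQ
    rwa [ordI_pow v₀ v₀.ne_bot, ordI_prime, if_pos rfl, mul_one] at h1
  refine ⟨?_, fun Q hQ hℓ0 => ?_⟩
  · rw [Nat.card_congr (Equiv.subtypeEquivRight hmem)]
    obtain ⟨Q, hQ⟩ := exists_belowP K3 F.field v₀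
    haveI : Q.asIdeal.LiesOver v₀.asIdeal := ⟨(congrArg HeightOneSpectrum.asIdeal hQ).symm⟩
    haveI := v₀.isMaximal
    have hfund := Ideal.ncard_primesOver_mul_ramificationIdxIn_mul_inertiaDegIn v₀.asIdeal
      (𝓞 F.field) (F.field ≃ₐ[K3] F.field)
    have he : v₀.asIdeal.ramificationIdxIn (𝓞 F.field) = 1 := by
      rw [Ideal.ramificationIdxIn_eq_ramificationIdx v₀.asIdeal Q.asIdeal
          (F.field ≃ₐ[K3] F.field),
        ← Ideal.ramificationIdx'_eq_ramificationIdx v₀.asIdeal Q.asIdeal v₀.ne_bot]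
      have h1 := eIdx_eq_one (K := K3) (Q := Q) (by rwa [hQ])
      rwa [eIdx, hQ] at h1
    rw [he, one_mul, show v₀.asIdeal.inertiaDegIn (𝓞 F.field) = 1 from hf, mul_one,
      IsGalois.card_aut_eq_finrank, F.finrank_eq, ← Nat.card_coe_set_eq] at hfund
    rw [← hfund]
    refine Nat.card_eq_of_bijective
      (fun P : {Q : HeightOneSpectrum (𝓞 F.field) // belowP K3 Q = v₀} =>
        (⟨P.1.asIdeal, P.1.isPrime, ⟨(congrArg HeightOneSpectrum.asIdeal P.2).symm⟩⟩ :
          v₀.asIdeal.primesOver (𝓞 F.field))) ⟨fun a b h => Subtype.ext (HeightOneSpectrum.ext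
            (congrArg Subtype.val h :)), fun P => ?_⟩
    obtain ⟨hP, hPv⟩ := P.2
    exact ⟨⟨⟨P.1, hP, Ideal.ne_bot_of_liesOver_of_ne_bot v₀.ne_bot P.1⟩,
      HeightOneSpectrum.ext hPv.over.symm⟩, rfl⟩
  · have h0 : ord v₀ (intU (ℓ : 𝓞 K3) hℓ0') = 1 := by
      rw [ord_intU_eq_ordI]
      exact_mod_cast (ordI_prime v₀ v₀).trans (if_pos rfl)
    rw [show intU (ℓ : 𝓞 F.field) hℓ0 = baseU (intU (ℓ : 𝓞 K3) hℓ0') from Units.ext (by simp),
      ord_baseU, eIdx_eq_one (by rw [(hmem Q).1 hQ]; exact hun), (hmem Q).1 hQ, h0]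
    simp

end FA.MuLarge
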